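/-
Programme W (top wiring), W-Mod part 2 (helper9): **the semistable integral model of the Frey
curve** (`P.freyCurveInt` of the Prelude) and the wiring of S04 / S06 to the exact-conductor-level
modularity of semistable curves.

With `A = a ^ p`, `B = b ^ p` (`a ≡ 3 mod 4`, `b` even, `p ≥ 5`):
* `freyCurveInt_map`        : `P.freyCurveInt.map (Int.castRingHom ℚ) = P.freyCurve`
  (the divisions by `4` and `16` in the Prelude definition are exact);
* `freyCurveInt_c₄`, `freyCurveInt_Δ` : `c₄ = A² + A B + B²`, `Δ = (A B / 16)² (A + B)²`;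
* `freyCurveInt_Δ_ne_zero`, `freyCurveInt_isSemistableModel`, `dvd_abc_of_dvd_Δ`,
  `isIntegralModelOf`;
* `s04_of_s60`  : the literal S60 shape gives the literal S04 conclusion;
* `s06_of_mlc1` : exact-conductor-level modularity of semistable curves (what S59 outputs; see
  `Wire/Mod9.mlc1_of_semistable`) gives the literal S06 conclusion.  NOTE: S06 does not follow
  formally from the frozen S04 (which forgets the level), see the header of `Wire/Mod9`.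
-/
import Mathlib
import Fermat.Prelude.Def_FLTPrelim_FreyPackage
import Fermat.Prelude.Def_FLTPrelim_Modularity
import Fermat.Prelude.Def_FLTPrelim_ModularRep
import Fermat.Prelude.Def_FreyPackage_IsConductorLevel
import Fermat.Prelude.Def_WeierstrassCurve_Mlc1RowStatement

set_option autoImplicit false

open WeierstrassCurve

namespace Fermat.Agent.Wire.FreyModel9

variable (P : FreyPackage)

/-! ### exactness of the divisions -/

theorem two_dvd_b : (2 : ℤ) ∣ P.b := (ZMod.intCast_zmod_eq_zero_iff_dvd P.b 2).1 P.hb2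

/-- `32 ∣ b ^ p` since `b` is even and `p ≥ 5`. -/
theorem thirtytwo_dvd_b_pow : (32 : ℤ) ∣ P.b ^ P.p := by
  obtain ⟨k, hk⟩ := two_dvd_b P
  have h5 : P.b ^ 5 ∣ P.b ^ P.p := pow_dvd_pow _ P.hp5
  refine Dvd.dvd.trans ?_ h5
  exact ⟨k ^ 5, by rw [hk]; ring⟩

theorem sixteen_dvd_b_pow : (16 : ℤ) ∣ P.b ^ P.p :=
  Dvd.dvd.trans ⟨2, by norm_num⟩ (thirtytwo_dvd_b_pow P)

theorem four_dvd_b_pow : (4 : ℤ) ∣ P.b ^ P.p :=
  Dvd.dvd.trans ⟨8, by norm_num⟩ (thirtytwo_dvd_b_pow P)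

/-- `a ^ p ≡ 3 mod 4`. -/
theorem a_pow_zmod_four : ((P.a ^ P.p : ℤ) : ZMod 4) = 3 := by
  obtain ⟨k, hk⟩ := P.hp_odd
  rw [Int.cast_pow, P.ha4, hk, pow_succ, pow_mul]
  have h9 : ((3 : ZMod 4)) ^ 2 = 1 := by decide
  rw [h9, one_pow, one_mul]

theorem four_dvd_a₂_num : (4 : ℤ) ∣ P.b ^ P.p - 1 - P.a ^ P.p := by
  have hb : ((P.b ^ P.p : ℤ) : ZMod 4) = 0 :=
    (ZMod.intCast_zmod_eq_zero_iff_dvd _ 4).2 (by exact_mod_cast four_dvd_b_pow P)
  have h0 : ((P.b ^ P.p - 1 - P.a ^ P.p : ℤ) : ZMod 4) = 0 := by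
    rw [Int.cast_sub, Int.cast_sub, hb, a_pow_zmod_four, Int.cast_one]
    decide
  exact_mod_cast (ZMod.intCast_zmod_eq_zero_iff_dvd _ 4).1 h0

theorem sixteen_dvd_a₄_num : (16 : ℤ) ∣ -(P.a ^ P.p) * (P.b ^ P.p) :=
  Dvd.dvd.mul_left (sixteen_dvd_b_pow P) _

/-- the exact quotient `β = A B / 16` (up to sign `a₄ = -β`). -/
theorem a₄_mul : P.freyCurveInt.a₄ * 16 = -(P.a ^ P.p) * (P.b ^ P.p) :=
  Int.ediv_mul_cancel (sixteen_dvd_a₄_num P)

theorem a₂_mul : P.freyCurveInt.a₂ * 4 = P.b ^ P.p - 1 - P.a ^ P.p :=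
  Int.ediv_mul_cancel (four_dvd_a₂_num P)

theorem freyCurveInt_a₁ : P.freyCurveInt.a₁ = 1 := rfl
theorem freyCurveInt_a₃ : P.freyCurveInt.a₃ = 0 := rfl
theorem freyCurveInt_a₆ : P.freyCurveInt.a₆ = 0 := rfl

/-- **the integral model base-changes to the Frey curve.** -/
theorem freyCurveInt_map : P.freyCurveInt.map (Int.castRingHom ℚ) = P.freyCurve := by
  have h2 : ((P.freyCurveInt.a₂ : ℤ) : ℚ) = ((P.b : ℚ) ^ P.p - 1 - (P.a : ℚ) ^ P.p) / 4 := by
    have := congrArg (fun z : ℤ => (z : ℚ)) (a₂_mul P)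
    push_cast at this
    rw [eq_div_iff (by norm_num : (4 : ℚ) ≠ 0)]
    exact this
  have h4 : ((P.freyCurveInt.a₄ : ℤ) : ℚ) = -((P.a : ℚ) ^ P.p) * ((P.b : ℚ) ^ P.p) / 16 := by
    have := congrArg (fun z : ℤ => (z : ℚ)) (a₄_mul P)
    push_cast at this
    rw [eq_div_iff (by norm_num : (16 : ℚ) ≠ 0)]
    exact this
  ext
  · simp [FreyPackage.freyCurveInt, FreyPackage.freyCurve]
  · simpa [FreyPackage.freyCurve] using h2
  · simp [FreyPackage.freyCurveInt, FreyPackage.freyCurve]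
  · simpa [FreyPackage.freyCurve] using h4
  · simp [FreyPackage.freyCurveInt, FreyPackage.freyCurve]

theorem isIntegralModelOf : P.freyCurveInt.IsIntegralModelOf P.freyCurve :=
  ⟨1, by rw [one_smul, freyCurveInt_map]⟩

/-! ### the invariants -/

theorem freyCurveInt_b₂ : P.freyCurveInt.b₂ = P.b ^ P.p - P.a ^ P.p := by
  rw [WeierstrassCurve.b₂, freyCurveInt_a₁]
  linear_combination a₂_mul P

theorem freyCurveInt_b₄ : P.freyCurveInt.b₄ = 2 * P.freyCurveInt.a₄ := by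
  rw [WeierstrassCurve.b₄, freyCurveInt_a₁, freyCurveInt_a₃]
  ring

theorem freyCurveInt_b₆ : P.freyCurveInt.b₆ = 0 := by
  rw [WeierstrassCurve.b₆, freyCurveInt_a₃, freyCurveInt_a₆]
  ring

theorem freyCurveInt_b₈ : P.freyCurveInt.b₈ = -P.freyCurveInt.a₄ ^ 2 := by
  rw [WeierstrassCurve.b₈, freyCurveInt_a₁, freyCurveInt_a₃, freyCurveInt_a₆]
  ring

/-- `c₄ = A² + A B + B²`. -/
theorem freyCurveInt_c₄ :
    P.freyCurveInt.c₄ = (P.a ^ P.p) ^ 2 + P.a ^ P.p * P.b ^ P.p + (P.b ^ P.p) ^ 2 := by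
  rw [WeierstrassCurve.c₄, freyCurveInt_b₂, freyCurveInt_b₄]
  linear_combination (-3 : ℤ) * a₄_mul P

/-- `Δ = a₄² (A + B)²`, `16 a₄ = -A B`. -/
theorem freyCurveInt_Δ :
    P.freyCurveInt.Δ = P.freyCurveInt.a₄ ^ 2 * (P.a ^ P.p + P.b ^ P.p) ^ 2 := by
  rw [WeierstrassCurve.Δ, freyCurveInt_b₂, freyCurveInt_b₄, freyCurveInt_b₆, freyCurveInt_b₈]
  linear_combination (-4 * P.freyCurveInt.a₄ ^ 2 : ℤ) * a₄_mul P

theorem a₄_ne_zero : P.freyCurveInt.a₄ ≠ 0 := by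
  intro h
  have h1 := a₄_mul P
  rw [h, zero_mul] at h1
  have h2 : P.a ^ P.p * P.b ^ P.p ≠ 0 := mul_ne_zero (pow_ne_zero _ P.ha0) (pow_ne_zero _ P.hb0)
  apply h2
  linear_combination h1

theorem freyCurveInt_Δ_ne_zero : P.freyCurveInt.Δ ≠ 0 := by
  rw [freyCurveInt_Δ, P.hFLT]
  exact mul_ne_zero (pow_ne_zero _ (a₄_ne_zero P)) (pow_ne_zero _ (pow_ne_zero _ P.hc0))

/-- a prime dividing the discriminant divides `A`, `B` or `A + B = C`. -/
theorem dvd_of_dvd_Δ {q : ℕ} (hq : q.Prime) (h : (q : ℤ) ∣ P.freyCurveInt.Δ) :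
    (q : ℤ) ∣ P.a ^ P.p ∨ (q : ℤ) ∣ P.b ^ P.p ∨ (q : ℤ) ∣ P.a ^ P.p + P.b ^ P.p := by
  have hqp : Prime (q : ℤ) := Nat.prime_iff_prime_int.mp hq
  rw [freyCurveInt_Δ] at h
  rcases hqp.dvd_or_dvd h with h1 | h1
  · have h2 : (q : ℤ) ∣ P.freyCurveInt.a₄ := hqp.dvd_of_dvd_pow h1
    have h3 : (q : ℤ) ∣ -(P.a ^ P.p) * (P.b ^ P.p) := by
      rw [← a₄_mul P]; exact Dvd.dvd.mul_right h2 _
    rcases hqp.dvd_or_dvd h3 with h4 | h4
    · exact Or.inl ((dvd_neg).mp h4)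
    · exact Or.inr (Or.inl h4)
  · exact Or.inr (Or.inr (hqp.dvd_of_dvd_pow h1))

theorem dvd_abc_of_dvd_Δ {q : ℕ} (hq : q.Prime) (h : (q : ℤ) ∣ P.freyCurveInt.Δ) :
    (q : ℤ) ∣ P.a * P.b * P.c := by
  have hqp : Prime (q : ℤ) := Nat.prime_iff_prime_int.mp hq
  rcases dvd_of_dvd_Δ P hq h with h1 | h1 | h1
  · exact Dvd.dvd.mul_right (Dvd.dvd.mul_right (hqp.dvd_of_dvd_pow h1) _) _
  · exact Dvd.dvd.mul_right (Dvd.dvd.mul_left (hqp.dvd_of_dvd_pow h1) _) _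
  · rw [P.hFLT] at h1
    exact Dvd.dvd.mul_left (hqp.dvd_of_dvd_pow h1) _

theorem not_dvd_of_gcd {q : ℕ} (hq : q.Prime) {x y : ℤ} (hxy : gcd x y = 1)
    (hx : (q : ℤ) ∣ x ^ P.p) : ¬ (q : ℤ) ∣ y ^ P.p := by
  have hqp : Prime (q : ℤ) := Nat.prime_iff_prime_int.mp hq
  intro hy
  have h1 : (q : ℤ) ∣ gcd x y := dvd_gcd (hqp.dvd_of_dvd_pow hx) (hqp.dvd_of_dvd_pow hy)
  rw [hxy] at h1
  exact hqp.not_dvd_one h1

/-- **semistability** of the integral Frey model. -/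
theorem freyCurveInt_isSemistableModel : P.freyCurveInt.IsSemistableModel := by
  intro q hq hΔ hc₄
  have hqp : Prime (q : ℤ) := Nat.prime_iff_prime_int.mp hq
  rw [freyCurveInt_c₄] at hc₄
  rcases dvd_of_dvd_Δ P hq hΔ with h1 | h1 | h1
  · -- `q ∣ A`: then `q ∣ B²`
    have h2 : (q : ℤ) ∣ (P.b ^ P.p) ^ 2 := by
      have : (P.b ^ P.p) ^ 2 = ((P.a ^ P.p) ^ 2 + P.a ^ P.p * P.b ^ P.p + (P.b ^ P.p) ^ 2) -
          P.a ^ P.p * (P.a ^ P.p + P.b ^ P.p) := by ring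
      rw [this]
      exact dvd_sub hc₄ (Dvd.dvd.mul_right h1 _)
    exact not_dvd_of_gcd P hq P.hgcdab h1 (hqp.dvd_of_dvd_pow h2)
  · -- `q ∣ B`: then `q ∣ A²`
    have h2 : (q : ℤ) ∣ (P.a ^ P.p) ^ 2 := by
      have : (P.a ^ P.p) ^ 2 = ((P.a ^ P.p) ^ 2 + P.a ^ P.p * P.b ^ P.p + (P.b ^ P.p) ^ 2) -
          P.b ^ P.p * (P.a ^ P.p + P.b ^ P.p) := by ring
      rw [this]
      exact dvd_sub hc₄ (Dvd.dvd.mul_right h1 _)
    have hgcdba : gcd P.b P.a = 1 := by rw [gcd_comm]; exact P.hgcdab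
    exact not_dvd_of_gcd P hq hgcdba h1 (hqp.dvd_of_dvd_pow h2)
  · -- `q ∣ C = A + B`: then `q ∣ A B`, so `q ∣ A` or `q ∣ B`, hence both
    have h2 : (q : ℤ) ∣ P.a ^ P.p * P.b ^ P.p := by
      have : P.a ^ P.p * P.b ^ P.p = (P.a ^ P.p + P.b ^ P.p) ^ 2 -
          ((P.a ^ P.p) ^ 2 + P.a ^ P.p * P.b ^ P.p + (P.b ^ P.p) ^ 2) := by ring
      rw [this]
      exact dvd_sub (Dvd.dvd.mul_right h1 _ |> fun h => by rw [pow_two]; exact h) hc₄
    rcases hqp.dvd_or_dvd h2 with h3 | h3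
    · have h4 : (q : ℤ) ∣ P.b ^ P.p := by
        have : P.b ^ P.p = (P.a ^ P.p + P.b ^ P.p) - P.a ^ P.p := by ring
        rw [this]; exact dvd_sub h1 h3
      exact not_dvd_of_gcd P hq P.hgcdab h3 h4
    · have h4 : (q : ℤ) ∣ P.a ^ P.p := by
        have : P.a ^ P.p = (P.a ^ P.p + P.b ^ P.p) - P.b ^ P.p := by ring
        rw [this]; exact dvd_sub h1 h3
      exact not_dvd_of_gcd P hq P.hgcdab h4 h3

/-! ### wiring -/

/-- **S04 from S60** (literal shapes). -/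
theorem s04_of_s60
    (h60 : ∀ (W : WeierstrassCurve ℤ) (_hΔ : W.Δ ≠ 0) (_hW : W.IsSemistableModel),
      (W.map (Int.castRingHom ℚ)).IsModular)
    (P : FreyPackage) : P.freyCurve.IsModular := by
  have h := h60 P.freyCurveInt (freyCurveInt_Δ_ne_zero P) (freyCurveInt_isSemistableModel P)
  rwa [freyCurveInt_map] at h

/-- a maximal ideal of the ring of all algebraic integers over a given prime number. -/
theorem exists_maximal_over (p : ℕ) (hp : p.Prime) :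
    ∃ 𝔪 : Ideal (integralClosure ℤ ℂ), 𝔪.IsMaximal ∧ ((p : ℕ) : integralClosure ℤ ℂ) ∈ 𝔪 := by
  have hmax : (Ideal.span {(p : ℤ)}).IsMaximal :=
    PrincipalIdealRing.isMaximal_of_irreducible (Nat.prime_iff_prime_int.mp hp).irreducible
  have hker : RingHom.ker (algebraMap ℤ (integralClosure ℤ ℂ)) ≤ Ideal.span {(p : ℤ)} := by
    intro x hx
    rw [RingHom.mem_ker] at hx
    have : x = 0 := by
      have h1 := congrArg (fun y : integralClosure ℤ ℂ => (y : ℂ)) hx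
      simpa using h1
    rw [this]
    exact Ideal.zero_mem _
  obtain ⟨Q, hQmax, hQP⟩ :=
    Ideal.exists_ideal_over_maximal_of_isIntegral (S := integralClosure ℤ ℂ)
      (Ideal.span {(p : ℤ)}) hker
  refine ⟨Q, hQmax, ?_⟩
  have h1 : (p : ℤ) ∈ Q.comap (algebraMap ℤ (integralClosure ℤ ℂ)) := by
    rw [hQP]; exact Ideal.mem_span_singleton_self _
  rw [Ideal.mem_comap] at h1
  simpa using h1

/-- **S06 from exact-conductor-level modularity of the integral Frey model.** -/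
theorem s06_of_mlc1_frey (P : FreyPackage)
    (h : Mlc1IsModularModelOfExactConductorLevel P.freyCurveInt) :
    ∃ N : ℕ, P.IsConductorLevel N ∧ P.ModularRepOfLevel N := by
  obtain ⟨N, hNpos, hNsq, hNbad, f, hf, hfW⟩ := h
  obtain ⟨𝔪, h𝔪max, hp𝔪⟩ := exists_maximal_over P.p P.pp
  refine ⟨N, ⟨hNpos, hNsq, fun q hq hqN => dvd_abc_of_dvd_Δ P hq ((hNbad q hq).mp hqN)⟩, ?_⟩
  refine ⟨f, P.freyCurveInt, 𝔪, hf, isIntegralModelOf P, h𝔪max, hp𝔪,
    fun ℓ hℓ hgood hℓN _ => ⟨((P.freyCurveInt.apOfModel ℓ : ℤ) : integralClosure ℤ ℂ), ?_, ?_⟩⟩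
  · rw [hfW ℓ hℓ hgood hℓN]
    simp
  · rw [sub_self]
    exact Ideal.zero_mem _

/-- **S06 from exact-conductor-level modularity of all semistable curves** (the conclusion of
`Wire/Mod9.mlc1_of_semistable`). -/
theorem s06_of_mlc1
    (hmlc : ∀ (W : WeierstrassCurve ℤ), W.Δ ≠ 0 → W.IsSemistableModel →
      Mlc1IsModularModelOfExactConductorLevel W)
    (P : FreyPackage) : ∃ N : ℕ, P.IsConductorLevel N ∧ P.ModularRepOfLevel N :=
  s06_of_mlc1_frey P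
    (hmlc P.freyCurveInt (freyCurveInt_Δ_ne_zero P) (freyCurveInt_isSemistableModel P))

/-- **S04 from exact-conductor-level modularity of all semistable curves.** -/
theorem s04_of_mlc1
    (hmlc : ∀ (W : WeierstrassCurve ℤ), W.Δ ≠ 0 → W.IsSemistableModel →
      Mlc1IsModularModelOfExactConductorLevel W)
    (P : FreyPackage) : P.freyCurve.IsModular := by
  obtain ⟨N, hN, -, -, hmod⟩ :=
    hmlc P.freyCurveInt (freyCurveInt_Δ_ne_zero P) (freyCurveInt_isSemistableModel P)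
  exact ⟨P.freyCurveInt, isIntegralModelOf P, N, hN, hmod⟩

end Fermat.Agent.Wire.FreyModel9
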