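/-
Programme W ("top wiring"), chapter W-Top (helper1): **the formal dependency DAG at the root.**

Each theorem takes the OPEN statements as hypotheses in the literal shape of the frozen statements
(binder lists copied from `Fermat/Statements/SNN.lean`; no reserved name is mentioned) and cites the
PROVED statements `Fermat.Agent.SNN.result`.

* `s09_of_s12` : S09 (Mazur: the Frey representation is irreducible) from S12 (no cofixed line for
  `p ≥ 17`), with S10 (`p ∈ {5, 7, 13}`), S11 (`p = 11`) and S13 (reducible ⇒ cofixed line);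
* `s03_of_s04_s09_s45` : S03 (no Frey package) from S04 (the Frey curve is modular), S09 and S45
  (modular + irreducible ⇒ a nonzero weight-2 cusp form of level `Γ₀(2)`), with S07 (there is none);
* `s01_of_s03` : S01 (Fermat's Last Theorem) from S03, with S02 (a counterexample for a prime
  exponent `p ≥ 5` gives a Frey package) and Mathlib's `fermatLastTheoremThree`,
  `fermatLastTheoremFour`, `FermatLastTheorem.of_odd_primes`;
* `s01_of_s04_s12_s45` : the composition.
-/
import Mathlib
import Fermat.Agent.S02
import Fermat.Agent.S07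
import Fermat.Agent.S10
import Fermat.Agent.S11
import Fermat.Agent.S13

set_option autoImplicit false

open WeierstrassCurve WeierstrassCurve.Affine WeierstrassCurve.Affine.Point
open CuspForm ModularFormClass UpperHalfPlane

namespace Fermat.Agent.Wire.Top1

/-- a prime `p` with `5 ≤ p < 17` is `5`, `7`, `11` or `13`. -/
theorem prime_lt_seventeen {p : ℕ} (pp : p.Prime) (h5 : 5 ≤ p) (h17 : p < 17) :
    p = 5 ∨ p = 7 ∨ p = 11 ∨ p = 13 := by
  interval_cases p <;> first | omega | (exfalso; revert pp; decide)

/-- **S09 from S12** (with S10, S11, S13). -/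
theorem s09_of_s12
    (h12 : ∀ (P : FreyPackage) (_hp : 17 ≤ P.p),
      ¬ HasGaloisStableCofixedLine (K := AlgebraicClosure ℚ) ℚ P.freyCurve P.p)
    (P : FreyPackage) :
    GaloisRepIsIrreducible (K := AlgebraicClosure ℚ) ℚ P.freyCurve P.p := by
  by_contra hred
  have hline : HasGaloisStableCofixedLine (K := AlgebraicClosure ℚ) ℚ P.freyCurve P.p :=
    Fermat.Agent.S13.result P hred
  by_cases h17 : 17 ≤ P.p
  · exact h12 P h17 hline
  · rcases prime_lt_seventeen P.pp P.hp5 (not_le.mp h17) with h | h | h | h
    · exact Fermat.Agent.S10.result P (Or.inl h) hline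
    · exact Fermat.Agent.S10.result P (Or.inr (Or.inl h)) hline
    · exact Fermat.Agent.S11.result P h hline
    · exact Fermat.Agent.S10.result P (Or.inr (Or.inr h)) hline

/-- **S03 from S04, S09, S45** (with S07). -/
theorem s03_of_s04_s09_s45
    (h04 : ∀ P : FreyPackage, P.freyCurve.IsModular)
    (h09 : ∀ P : FreyPackage,
      GaloisRepIsIrreducible (K := AlgebraicClosure ℚ) ℚ P.freyCurve P.p)
    (h45 : ∀ (P : FreyPackage) (_hmod : P.freyCurve.IsModular)
      (_hirr : GaloisRepIsIrreducible (K := AlgebraicClosure ℚ) ℚ P.freyCurve P.p),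
      ∃ f : CuspForm (CongruenceSubgroup.Gamma0 2) 2, f ≠ 0)
    (P : FreyPackage) : False := by
  obtain ⟨f, hf⟩ := h45 P (h04 P) (h09 P)
  exact hf (Fermat.Agent.S07.result f)

/-- **S01 from S03** (with S02 and Mathlib's exponents `3`, `4` and reduction to odd primes). -/
theorem s01_of_s03 (h03 : ∀ _P : FreyPackage, False)
    (n : ℕ) (hn : 3 ≤ n) (a b c : ℕ) (ha : 0 < a) (hb : 0 < b) (hc : 0 < c) :
    a ^ n + b ^ n ≠ c ^ n := by
  have hFLT : FermatLastTheorem := by
    refine FermatLastTheorem.of_odd_primes fun p pp hodd => ?_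
    by_cases h3 : p = 3
    · rw [h3]; exact fermatLastTheoremThree
    · have h5 : 5 ≤ p := by
        have h2 := pp.two_le
        have hne2 : p ≠ 2 := fun h => by rw [h] at hodd; exact absurd hodd (by decide)
        have hne4 : p ≠ 4 := fun h => by rw [h] at pp; exact absurd pp (by decide)
        omega
      rw [fermatLastTheoremFor_iff_int]
      intro x y z hx hy hz H
      obtain ⟨P⟩ := Fermat.Agent.S02.result x y z hx hy hz p pp h5 H
      exact h03 P
  exact hFLT n hn a b c ha.ne' hb.ne' hc.ne'

/-- **S01 from S04, S12, S45**: the root of the DAG in terms of the three open Frey-curve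
statements (modularity, Mazur for `p ≥ 17`, level lowering to `Γ₀(2)`). -/
theorem s01_of_s04_s12_s45
    (h04 : ∀ P : FreyPackage, P.freyCurve.IsModular)
    (h12 : ∀ (P : FreyPackage) (_hp : 17 ≤ P.p),
      ¬ HasGaloisStableCofixedLine (K := AlgebraicClosure ℚ) ℚ P.freyCurve P.p)
    (h45 : ∀ (P : FreyPackage) (_hmod : P.freyCurve.IsModular)
      (_hirr : GaloisRepIsIrreducible (K := AlgebraicClosure ℚ) ℚ P.freyCurve P.p),
      ∃ f : CuspForm (CongruenceSubgroup.Gamma0 2) 2, f ≠ 0)
    (n : ℕ) (hn : 3 ≤ n) (a b c : ℕ) (ha : 0 < a) (hb : 0 < b) (hc : 0 < c) :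
    a ^ n + b ^ n ≠ c ^ n :=
  s01_of_s03 (s03_of_s04_s09_s45 h04 (s09_of_s12 h12) h45) n hn a b c ha hb hc

end Fermat.Agent.Wire.Top1
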