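/-
Programme W ("top wiring"), helper6: the integral Frey model `P.freyCurveInt` of the Prelude.

* `map_freyCurveInt`      : `P.freyCurveInt.map (Int.castRingHom ℚ) = P.freyCurve`;
* `c₄_freyCurveInt`       : `c₄ = (bᵖ - aᵖ)² + 3 aᵖ bᵖ`;
* `Δ_freyCurveInt`        : `256 Δ = (aᵖ bᵖ cᵖ)²`;
* `Δ_ne_zero`, `isSemistableModel`;
* `prime_dvd_Δ_iff`       : a prime divides `Δ` iff it divides `a b c`;
* `isIntegralModelOf`     : `P.freyCurveInt.IsIntegralModelOf P.freyCurve`.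

Mathlib + Prelude only.
-/
import Mathlib
import Fermat.Prelude.Def_FLTPrelim_FreyPackage
import Fermat.Prelude.Def_FLTPrelim_Modularity

set_option autoImplicit false

namespace Fermat.Agent.Wire.FreyModel6

variable (P : FreyPackage)

/-! ### integer arithmetic -/

theorem two_dvd_b : (2 : ℤ) ∣ P.b := (ZMod.intCast_zmod_eq_zero_iff_dvd P.b 2).1 P.hb2

theorem four_dvd_a_sub : (4 : ℤ) ∣ P.a - 3 := by
  have : ((P.a - 3 : ℤ) : ZMod 4) = 0 := by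
    push_cast; rw [P.ha4]; decide
  exact_mod_cast (ZMod.intCast_zmod_eq_zero_iff_dvd (P.a - 3) 4).1 this

theorem four_dvd_a_pow_add_one : (4 : ℤ) ∣ P.a ^ P.p + 1 := by
  have h1 : P.a ≡ -1 [ZMOD 4] := by
    obtain ⟨k, hk⟩ := four_dvd_a_sub P
    refine (Int.modEq_iff_dvd).mpr ⟨-k - 1, ?_⟩
    linarith
  have h2 : P.a ^ P.p ≡ (-1) ^ P.p [ZMOD 4] := h1.pow P.p
  rw [P.hp_odd.neg_one_pow] at h2
  have := (Int.modEq_iff_dvd.mp h2.symm)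
  simpa [sub_neg_eq_add] using this

theorem thirtytwo_dvd_b_pow : (32 : ℤ) ∣ P.b ^ P.p := by
  have h1 : (2 : ℤ) ^ P.p ∣ P.b ^ P.p := pow_dvd_pow_of_dvd (two_dvd_b P) _
  have h2 : (2 : ℤ) ^ 5 ∣ 2 ^ P.p := pow_dvd_pow 2 P.hp5
  exact (by norm_num : (32 : ℤ) = 2 ^ 5) ▸ h2.trans h1

theorem four_dvd : (4 : ℤ) ∣ P.b ^ P.p - 1 - P.a ^ P.p := by
  have h1 : (4 : ℤ) ∣ P.b ^ P.p := (by norm_num : (4 : ℤ) ∣ 32).trans (thirtytwo_dvd_b_pow P)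
  have h2 := four_dvd_a_pow_add_one P
  have : P.b ^ P.p - 1 - P.a ^ P.p = P.b ^ P.p - (P.a ^ P.p + 1) := by ring
  rw [this]; exact dvd_sub h1 h2

theorem sixteen_dvd : (16 : ℤ) ∣ -(P.a ^ P.p) * P.b ^ P.p :=
  Dvd.dvd.mul_left ((by norm_num : (16 : ℤ) ∣ 32).trans (thirtytwo_dvd_b_pow P)) _

/-- `4 a₂ = bᵖ - 1 - aᵖ`. -/
theorem four_mul_a₂ : 4 * P.freyCurveInt.a₂ = P.b ^ P.p - 1 - P.a ^ P.p := by
  show 4 * ((P.b ^ P.p - 1 - P.a ^ P.p) / 4) = _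
  exact Int.mul_ediv_cancel' (four_dvd P)

/-- `16 a₄ = -aᵖ bᵖ`. -/
theorem sixteen_mul_a₄ : 16 * P.freyCurveInt.a₄ = -(P.a ^ P.p) * P.b ^ P.p := by
  show 16 * (-(P.a ^ P.p) * (P.b ^ P.p) / 16) = _
  exact Int.mul_ediv_cancel' (sixteen_dvd P)

@[simp] theorem a₁_eq : P.freyCurveInt.a₁ = 1 := rfl
@[simp] theorem a₃_eq : P.freyCurveInt.a₃ = 0 := rfl
@[simp] theorem a₆_eq : P.freyCurveInt.a₆ = 0 := rfl

/-- `a₄` is even (indeed `2 a₄' = a₄` with `32 a₄' = -aᵖ bᵖ`). -/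
theorem two_dvd_a₄ : (2 : ℤ) ∣ P.freyCurveInt.a₄ := by
  obtain ⟨k, hk⟩ := thirtytwo_dvd_b_pow P
  have h := sixteen_mul_a₄ P
  rw [hk] at h
  refine ⟨-(P.a ^ P.p) * k, ?_⟩
  linarith

/-! ### base change to `ℚ` -/

theorem map_freyCurveInt : P.freyCurveInt.map (Int.castRingHom ℚ) = P.freyCurve := by
  have h2 : ((P.freyCurveInt.a₂ : ℤ) : ℚ) = ((P.b : ℚ) ^ P.p - 1 - (P.a : ℚ) ^ P.p) / 4 := by
    have := four_mul_a₂ P
    have hq : (4 : ℚ) * (P.freyCurveInt.a₂ : ℚ) = (P.b : ℚ) ^ P.p - 1 - (P.a : ℚ) ^ P.p := by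
      exact_mod_cast this
    rw [← hq]; ring
  have h4 : ((P.freyCurveInt.a₄ : ℤ) : ℚ) = -((P.a : ℚ) ^ P.p) * ((P.b : ℚ) ^ P.p) / 16 := by
    have := sixteen_mul_a₄ P
    have hq : (16 : ℚ) * (P.freyCurveInt.a₄ : ℚ) = -((P.a : ℚ) ^ P.p) * (P.b : ℚ) ^ P.p := by
      exact_mod_cast this
    rw [← hq]; ring
  ext
  · simp [FreyPackage.freyCurve]
  · simpa [FreyPackage.freyCurve] using h2
  · simp [FreyPackage.freyCurve]
  · simpa [FreyPackage.freyCurve] using h4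
  · simp [FreyPackage.freyCurve]

theorem isIntegralModelOf : P.freyCurveInt.IsIntegralModelOf P.freyCurve :=
  ⟨1, by rw [one_smul, map_freyCurveInt]⟩

/-! ### invariants -/

theorem b₂_eq : P.freyCurveInt.b₂ = P.b ^ P.p - P.a ^ P.p := by
  have := four_mul_a₂ P
  simp only [WeierstrassCurve.b₂, a₁_eq]
  linarith

theorem b₄_eq : P.freyCurveInt.b₄ = 2 * P.freyCurveInt.a₄ := by
  simp [WeierstrassCurve.b₄]

theorem b₆_eq : P.freyCurveInt.b₆ = 0 := by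
  simp [WeierstrassCurve.b₆]

theorem b₈_eq : P.freyCurveInt.b₈ = -P.freyCurveInt.a₄ ^ 2 := by
  simp [WeierstrassCurve.b₈]

theorem c₄_freyCurveInt :
    P.freyCurveInt.c₄ = (P.b ^ P.p - P.a ^ P.p) ^ 2 + 3 * (P.a ^ P.p * P.b ^ P.p) := by
  have h := sixteen_mul_a₄ P
  rw [WeierstrassCurve.c₄, b₂_eq, b₄_eq]
  linarith

theorem Δ_eq : P.freyCurveInt.Δ = P.freyCurveInt.a₄ ^ 2 * (P.c ^ P.p) ^ 2 := by
  have h := sixteen_mul_a₄ P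
  have hc := P.hFLT
  rw [WeierstrassCurve.Δ, b₂_eq, b₄_eq, b₆_eq, b₈_eq, ← hc]
  have h' : P.a ^ P.p * P.b ^ P.p = -16 * P.freyCurveInt.a₄ := by linarith
  have : (P.a ^ P.p + P.b ^ P.p) ^ 2 = (P.b ^ P.p - P.a ^ P.p) ^ 2 + 4 * (P.a ^ P.p * P.b ^ P.p) := by
    ring
  rw [this, h']
  ring

theorem Δ_freyCurveInt :
    256 * P.freyCurveInt.Δ = (P.a ^ P.p * P.b ^ P.p * P.c ^ P.p) ^ 2 := by
  have h := sixteen_mul_a₄ P
  have h' : P.a ^ P.p * P.b ^ P.p = -16 * P.freyCurveInt.a₄ := by linarith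
  rw [Δ_eq, mul_pow, h']
  ring

theorem Δ_ne_zero : P.freyCurveInt.Δ ≠ 0 := by
  intro h0
  have h := Δ_freyCurveInt P
  rw [h0, mul_zero] at h
  have hne : P.a ^ P.p * P.b ^ P.p * P.c ^ P.p ≠ 0 :=
    mul_ne_zero (mul_ne_zero (pow_ne_zero _ P.ha0) (pow_ne_zero _ P.hb0)) (pow_ne_zero _ P.hc0)
  exact pow_ne_zero 2 hne h.symm

theorem two_dvd_Δ : (2 : ℤ) ∣ P.freyCurveInt.Δ := by
  rw [Δ_eq]
  exact Dvd.dvd.mul_right (Dvd.dvd.pow (two_dvd_a₄ P) two_ne_zero) _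

/-- coprimality in the `IsCoprime`-free form: no prime divides two of `a, b, c`. -/
theorem not_dvd_of_gcd_eq_one {x y : ℤ} (h : gcd x y = 1) {q : ℕ} (hq : q.Prime)
    (hx : (q : ℤ) ∣ x) (hy : (q : ℤ) ∣ y) : False := by
  have hd : (q : ℤ) ∣ gcd x y := dvd_gcd hx hy
  rw [h] at hd
  have := Int.isUnit_iff.mp (isUnit_of_dvd_one hd)
  have h2 := hq.two_le
  omega

theorem prime_dvd_abc_of_dvd_Δ {q : ℕ} (hq : q.Prime) (h : (q : ℤ) ∣ P.freyCurveInt.Δ) :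
    (q : ℤ) ∣ P.a * P.b * P.c := by
  have hqp : Prime (q : ℤ) := Nat.prime_iff_prime_int.mp hq
  have h1 : (q : ℤ) ∣ (P.a ^ P.p * P.b ^ P.p * P.c ^ P.p) ^ 2 := by
    rw [← Δ_freyCurveInt]; exact Dvd.dvd.mul_left h _
  have h2 := hqp.dvd_of_dvd_pow h1
  rcases hqp.dvd_or_dvd h2 with h3 | h3
  · rcases hqp.dvd_or_dvd h3 with h4 | h4
    · exact Dvd.dvd.mul_right (Dvd.dvd.mul_right (hqp.dvd_of_dvd_pow h4) _) _
    · exact Dvd.dvd.mul_right (Dvd.dvd.mul_left (hqp.dvd_of_dvd_pow h4) _) _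
  · exact Dvd.dvd.mul_left (hqp.dvd_of_dvd_pow h3) _

theorem prime_dvd_Δ_of_dvd_abc {q : ℕ} (hq : q.Prime) (h : (q : ℤ) ∣ P.a * P.b * P.c) :
    (q : ℤ) ∣ P.freyCurveInt.Δ := by
  have hqp : Prime (q : ℤ) := Nat.prime_iff_prime_int.mp hq
  by_cases h2 : q = 2
  · subst h2; exact_mod_cast two_dvd_Δ P
  · have hp0 : P.p ≠ 0 := P.hp0
    have h1 : (q : ℤ) ∣ 256 * P.freyCurveInt.Δ := by
      rw [Δ_freyCurveInt]
      have : (q : ℤ) ∣ P.a ^ P.p * P.b ^ P.p * P.c ^ P.p := by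
        rw [← mul_pow, ← mul_pow]; exact Dvd.dvd.pow h hp0
      exact Dvd.dvd.pow this two_ne_zero
    rcases hqp.dvd_or_dvd h1 with h3 | h3
    · exfalso
      have h4 : (q : ℤ) ∣ 2 ^ 8 := by norm_num; exact h3
      have h5 := hqp.dvd_of_dvd_pow h4
      have h6 : q ∣ 2 := by exact_mod_cast h5
      exact h2 ((Nat.prime_dvd_prime_iff_eq hq Nat.prime_two).mp h6)
    · exact h3

theorem prime_dvd_Δ_iff {q : ℕ} (hq : q.Prime) :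
    (q : ℤ) ∣ P.freyCurveInt.Δ ↔ (q : ℤ) ∣ P.a * P.b * P.c :=
  ⟨prime_dvd_abc_of_dvd_Δ P hq, prime_dvd_Δ_of_dvd_abc P hq⟩

theorem isSemistableModel : P.freyCurveInt.IsSemistableModel := by
  intro q hq hΔ hc4
  have hqp : Prime (q : ℤ) := Nat.prime_iff_prime_int.mp hq
  rw [c₄_freyCurveInt] at hc4
  have habc := prime_dvd_abc_of_dvd_Δ P hq hΔ
  have hp0 : P.p ≠ 0 := P.hp0
  rcases hqp.dvd_or_dvd habc with h3 | h3
  · rcases hqp.dvd_or_dvd h3 with ha | hb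
    · -- q ∣ a: then q ∣ b ^ (2p)
      have ha' : (q : ℤ) ∣ P.a ^ P.p := Dvd.dvd.pow ha hp0
      have : (q : ℤ) ∣ (P.b ^ P.p) ^ 2 := by
        have e : (P.b ^ P.p) ^ 2 = ((P.b ^ P.p - P.a ^ P.p) ^ 2 + 3 * (P.a ^ P.p * P.b ^ P.p))
            - P.a ^ P.p * (P.a ^ P.p + P.b ^ P.p) := by ring
        rw [e]; exact dvd_sub hc4 (Dvd.dvd.mul_right ha' _)
      have hb := hqp.dvd_of_dvd_pow (hqp.dvd_of_dvd_pow this)
      exact not_dvd_of_gcd_eq_one P.hgcdab hq ha hb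
    · have hb' : (q : ℤ) ∣ P.b ^ P.p := Dvd.dvd.pow hb hp0
      have : (q : ℤ) ∣ (P.a ^ P.p) ^ 2 := by
        have e : (P.a ^ P.p) ^ 2 = ((P.b ^ P.p - P.a ^ P.p) ^ 2 + 3 * (P.a ^ P.p * P.b ^ P.p))
            - P.b ^ P.p * (P.a ^ P.p + P.b ^ P.p) := by ring
        rw [e]; exact dvd_sub hc4 (Dvd.dvd.mul_right hb' _)
      have ha := hqp.dvd_of_dvd_pow (hqp.dvd_of_dvd_pow this)
      exact not_dvd_of_gcd_eq_one P.hgcdab hq ha hb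
  · -- q ∣ c
    have hc' : (q : ℤ) ∣ P.a ^ P.p + P.b ^ P.p := by
      rw [P.hFLT]; exact Dvd.dvd.pow h3 hp0
    have : (q : ℤ) ∣ P.a ^ P.p * P.b ^ P.p := by
      have e : P.a ^ P.p * P.b ^ P.p = (P.a ^ P.p + P.b ^ P.p) ^ 2
          - ((P.b ^ P.p - P.a ^ P.p) ^ 2 + 3 * (P.a ^ P.p * P.b ^ P.p)) := by ring
      rw [e]; exact dvd_sub (Dvd.dvd.pow hc' two_ne_zero) hc4
    rcases hqp.dvd_or_dvd this with ha | hb
    · exact not_dvd_of_gcd_eq_one P.hgcdac hq (hqp.dvd_of_dvd_pow ha) h3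
    · exact not_dvd_of_gcd_eq_one P.hgcdbc hq (hqp.dvd_of_dvd_pow hb) h3

end Fermat.Agent.Wire.FreyModel6
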