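/-
Programme W ("top wiring"), chapter W-Lower (helper8): **level lowering down to `Γ₀(2)`, formally.**

The theorem takes the OPEN statements S06, S43, S44 as hypotheses in the literal shape of the frozen
statements (binder lists copied from `Fermat/Statements/SNN.lean`; no reserved name is mentioned) and
cites the PROVED statements `Fermat.Agent.S05.result` (the Frey representation is unramified at every
prime `q ≠ 2, p`) and `Fermat.Agent.S08.result` (there is no nonzero cusp form of weight `2` and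
level `Γ₀(1)`).

* `exists_level_dvd_two` : starting from a conductor level `N` at which the Frey representation is
  modular, strip every odd prime `q ≠ p` (S43, with `hunr` from S05) and then `p` (S44), by strong
  induction on `N`; since a conductor level is squarefree one ends at a level `M ∣ 2`;
* `s45_of_s06_s43_s44` : S45 (modular + irreducible ⇒ a nonzero cusp form of weight `2` and level
  `Γ₀(2)`) from S06 (the Frey representation is modular of some conductor level), S43 and S44.
  The level `M = 1` is excluded by S08 (a normalised eigenform has `a₁ = 1`), so `M = 2`.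
  (The hypothesis `hmod` of S45 is not used: S06 is stated for every Frey package.)
-/
import Mathlib
import Fermat.Agent.S05
import Fermat.Agent.S08
import Fermat.Prelude.Def_FreyPackage_IsConductorLevel
import Fermat.Prelude.Def_FLTPrelim_ModularRep
import Fermat.Prelude.Def_FLTPrelim_Ramification

set_option autoImplicit false

open WeierstrassCurve WeierstrassCurve.Affine WeierstrassCurve.Affine.Point
open CuspForm ModularFormClass UpperHalfPlane

namespace Fermat.Agent.Wire.Lower8

/-- a squarefree number all of whose prime factors are `2` divides `2`. -/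
theorem dvd_two_of_squarefree {N : ℕ} (hsq : Squarefree N)
    (h2 : ∀ q : ℕ, q.Prime → q ∣ N → q = 2) : N ∣ 2 := by
  have hN0 : N ≠ 0 := hsq.ne_zero
  rw [← Nat.factorization_le_iff_dvd hN0 (by norm_num)]
  intro q
  by_cases hq : q.Prime
  · by_cases hqN : q ∣ N
    · have hq2 : q = 2 := h2 q hq hqN
      subst hq2
      have h1 : N.factorization 2 ≤ 1 := hsq.natFactorization_le_one 2
      have h3 : (2 : ℕ).factorization 2 = 1 := Nat.prime_two.factorization_self
      omega
    · rw [Nat.factorization_eq_zero_of_not_dvd hqN]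
      exact Nat.zero_le _
  · rw [Nat.factorization_eq_zero_of_not_prime N hq]
    exact Nat.zero_le _

/-- **stripping the level down to a divisor of `2`** (S43 + S44 as hypotheses, S05 proved). -/
theorem exists_level_dvd_two
    (h43 : ∀ (P : FreyPackage) {N q : ℕ} (_hcond : P.IsConductorLevel N) (_hq : q.Prime)
      (_hq2 : q ≠ 2) (_hqp : q ≠ P.p) (_hqN : q ∣ N)
      (_hirr : GaloisRepIsIrreducible (K := AlgebraicClosure ℚ) ℚ P.freyCurve P.p)
      (_hmod : P.ModularRepOfLevel N) (_hunr : P.GaloisRepUnramifiedAt q),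
      ∃ M : ℕ, M ∣ N ∧ ¬ q ∣ M ∧ P.ModularRepOfLevel M)
    (h44 : ∀ (P : FreyPackage) {N : ℕ} (_hcond : P.IsConductorLevel N) (_hpN : P.p ∣ N)
      (_hirr : GaloisRepIsIrreducible (K := AlgebraicClosure ℚ) ℚ P.freyCurve P.p)
      (_hmod : P.ModularRepOfLevel N),
      ∃ M : ℕ, M ∣ N ∧ ¬ P.p ∣ M ∧ P.ModularRepOfLevel M)
    (P : FreyPackage)
    (hirr : GaloisRepIsIrreducible (K := AlgebraicClosure ℚ) ℚ P.freyCurve P.p) :
    ∀ N : ℕ, P.IsConductorLevel N → P.ModularRepOfLevel N →
      ∃ M : ℕ, M ∣ 2 ∧ P.ModularRepOfLevel M := by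
  intro N
  induction N using Nat.strong_induction_on with
  | _ N ih =>
    intro hcond hmod
    have hNpos : 0 < N := hcond.pos
    -- one step: a divisor `M` of `N` with a prime `q ∣ N`, `q ∤ M` is smaller
    have step : ∀ (M q : ℕ), M ∣ N → q ∣ N → ¬ q ∣ M → P.ModularRepOfLevel M →
        ∃ M' : ℕ, M' ∣ 2 ∧ P.ModularRepOfLevel M' := by
      intro M q hMN hqN hqM hmodM
      have hMpos : 0 < M := Nat.pos_of_dvd_of_pos hMN hNpos
      have hMlt : M < N := by
        refine lt_of_le_of_ne (Nat.le_of_dvd hNpos hMN) ?_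
        rintro rfl
        exact hqM hqN
      exact ih M hMlt (hcond.of_dvd hMN hMpos) hmodM
    by_cases hodd : ∃ q : ℕ, q.Prime ∧ q ∣ N ∧ q ≠ 2 ∧ q ≠ P.p
    · obtain ⟨q, hq, hqN, hq2, hqp⟩ := hodd
      obtain ⟨M, hMN, hqM, hmodM⟩ :=
        h43 P hcond hq hq2 hqp hqN hirr hmod (Fermat.Agent.S05.result P hq hq2 hqp)
      exact step M q hMN hqN hqM hmodM
    · by_cases hpN : P.p ∣ N
      · obtain ⟨M, hMN, hpM, hmodM⟩ := h44 P hcond hpN hirr hmod
        exact step M P.p hMN hpN hpM hmodM
      · refine ⟨N, dvd_two_of_squarefree hcond.squarefree fun q hq hqN => ?_, hmod⟩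
        by_contra hq2
        refine hodd ⟨q, hq, hqN, hq2, ?_⟩
        rintro rfl
        exact hpN hqN

/-- **S45 from S06, S43, S44** (with S05 and S08). -/
theorem s45_of_s06_s43_s44
    (h06 : ∀ P : FreyPackage, ∃ N : ℕ, P.IsConductorLevel N ∧ P.ModularRepOfLevel N)
    (h43 : ∀ (P : FreyPackage) {N q : ℕ} (_hcond : P.IsConductorLevel N) (_hq : q.Prime)
      (_hq2 : q ≠ 2) (_hqp : q ≠ P.p) (_hqN : q ∣ N)
      (_hirr : GaloisRepIsIrreducible (K := AlgebraicClosure ℚ) ℚ P.freyCurve P.p)
      (_hmod : P.ModularRepOfLevel N) (_hunr : P.GaloisRepUnramifiedAt q),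
      ∃ M : ℕ, M ∣ N ∧ ¬ q ∣ M ∧ P.ModularRepOfLevel M)
    (h44 : ∀ (P : FreyPackage) {N : ℕ} (_hcond : P.IsConductorLevel N) (_hpN : P.p ∣ N)
      (_hirr : GaloisRepIsIrreducible (K := AlgebraicClosure ℚ) ℚ P.freyCurve P.p)
      (_hmod : P.ModularRepOfLevel N),
      ∃ M : ℕ, M ∣ N ∧ ¬ P.p ∣ M ∧ P.ModularRepOfLevel M)
    (P : FreyPackage) (_hmod : P.freyCurve.IsModular)
    (hirr : GaloisRepIsIrreducible (K := AlgebraicClosure ℚ) ℚ P.freyCurve P.p) :
    ∃ f : CuspForm (CongruenceSubgroup.Gamma0 2) 2, f ≠ 0 := by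
  obtain ⟨N, hcond, hmodN⟩ := h06 P
  obtain ⟨M, hM2, hmodM⟩ := exists_level_dvd_two h43 h44 P hirr N hcond hmodN
  rcases (Nat.dvd_prime Nat.prime_two).1 hM2 with rfl | rfl
  · obtain ⟨f, -, -, hf, -⟩ := hmodM
    exact absurd (Fermat.Agent.S08.result f) hf.ne_zero
  · obtain ⟨f, -, -, hf, -⟩ := hmodM
    exact ⟨f, hf.ne_zero⟩

end Fermat.Agent.Wire.Lower8
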