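/-
Programme W (top wiring), W-Mod part 1 (helper9): **S60 from S59 + S50, with the 3–5 switch**.

Hypotheses are the OPEN statements in their literal frozen shapes (as `Prop`-valued definitions
`S59Shape`, `S50Shape`; each unfolds by `Iff.rfl` to the binder list of the template), the proved
statements `S51.result`, `S52.result` are cited.  One step is NOT formal wiring and is isolated as
the explicit hypothesis `GapNine`:

* S50 produces a level `M` which is cube-free away from `3` but may be divisible by `3 ^ 2`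
  (in which case it adds that the inertia group at `3` has no nonzero fixed point on `W[3]`);
  S59 needs `¬ 3 ^ 2 ∣ M₀`.  `GapNine` is exactly the missing bridge: from the S50 output with
  `3 ^ 2 ∣ M` produce a level `M'` with `¬ 3 ^ 2 ∣ M'` (level optimisation at `p = 3` for a level
  divisible by `p ^ 2`: Carayol's lemma + Edixhoven's weight/level bookkeeping; none of the 60
  statements provides it; S39/S40/S44 only treat `p ∥ M`).

Results:
* `mlc1_of_irr3`  : exact-conductor-level modularity of a semistable `W` with `W[3]` irreducible;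
* `mlc1_of_irr5`  : the same for `W[5]` irreducible (3–5 switch: `S52.result`, then S59 at `p = 5`
  with `M₀` = the squarefree exact conductor level of the switched curve);
* `mlc1_of_semistable` : every semistable `W` with `Δ ≠ 0` (`S51.result`);
* `s60_of_s59_s50` : the S60 conclusion `(W.map (Int.castRingHom ℚ)).IsModular`.
-/
import Mathlib
import Fermat.Prelude.Def_WeierstrassCurve_Mlc1RowStatement
import Fermat.Prelude.Def_FLTPrelim_ModularRep
import Fermat.Prelude.Def_FLTPrelim_Ramification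
import Fermat.Agent.S51
import Fermat.Agent.S52

set_option autoImplicit false
set_option linter.style.haveILetI false

open WeierstrassCurve WeierstrassCurve.Affine WeierstrassCurve.Affine.Point
open scoped WeierstrassCurve.Affine

namespace Fermat.Agent.Wire.Mod9

local notation "Qb" => AlgebraicClosure ℚ

/-- the literal shape of the open statement S59 (modularity lifting at `p ∈ {3, 5}`). -/
def S59Shape : Prop :=
  ∀ (p : ℕ) (_hp : p = 3 ∨ p = 5)
    (W : WeierstrassCurve ℤ) (_hΔ : W.Δ ≠ 0) (_hW : W.IsSemistableModel)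
    (_hirr : W.ModRepIsIrreducible p)
    (M₀ : ℕ) [NeZero M₀] (_hres₀ : W.IsResiduallyModularOfLevel p M₀)
    (_hM₀ : ¬ p ^ 2 ∣ M₀)
    (_hM₀3 : ∀ q : ℕ, q.Prime → q ≠ p → ¬ q ^ 3 ∣ M₀),
    Mlc1IsModularModelOfExactConductorLevel W

/-- the inertia clause of S50. -/
def NoInertiaFixedPointAtThree (W : WeierstrassCurve ℤ) : Prop :=
  ∀ A : ValuationSubring (AlgebraicClosure ℚ), A.LiesOverPrime 3 →
    ∀ x : Submodule.torsionBy ℤ
        ((W.map (Int.castRingHom ℚ))⁄(AlgebraicClosure ℚ)).Point (3 : ℕ),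
      (∀ σ ∈ A.inertiaSubgroupIn ℚ, σ • x = x) → x = 0

/-- the literal shape of the open statement S50 (Langlands–Tunnell, third accepted form). -/
def S50Shape : Prop :=
  ∀ (W : WeierstrassCurve ℤ) (_hΔ : W.Δ ≠ 0) (_hW : W.IsSemistableModel)
    (_h3 : W.ModRepIsIrreducible 3),
    ∃ M : ℕ, 0 < M ∧ W.IsResiduallyModularOfLevel 3 M ∧
      (∀ q : ℕ, q.Prime → q ≠ 3 → ¬ q ^ 3 ∣ M) ∧
      (3 ^ 2 ∣ M →
        ∀ A : ValuationSubring (AlgebraicClosure ℚ), A.LiesOverPrime 3 →
          ∀ x : Submodule.torsionBy ℤ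
              ((W.map (Int.castRingHom ℚ))⁄(AlgebraicClosure ℚ)).Point (3 : ℕ),
            (∀ σ ∈ A.inertiaSubgroupIn ℚ, σ • x = x) → x = 0)

/-- **THE GAP** between S50 and S59: level optimisation at `3` when `3 ^ 2` divides the level. -/
def GapNine : Prop :=
  ∀ (W : WeierstrassCurve ℤ), W.Δ ≠ 0 → W.IsSemistableModel → W.ModRepIsIrreducible 3 →
    ∀ M : ℕ, 0 < M → W.IsResiduallyModularOfLevel 3 M →
      (∀ q : ℕ, q.Prime → q ≠ 3 → ¬ q ^ 3 ∣ M) → 3 ^ 2 ∣ M → NoInertiaFixedPointAtThree W →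
      ∃ M' : ℕ, 0 < M' ∧ W.IsResiduallyModularOfLevel 3 M' ∧ ¬ 3 ^ 2 ∣ M' ∧
        ∀ q : ℕ, q.Prime → q ≠ 3 → ¬ q ^ 3 ∣ M'

/-- a maximal ideal of the ring of all algebraic integers over a given prime number. -/
theorem exists_maximal_over (p : ℕ) (hp : p.Prime) :
    ∃ 𝔪 : Ideal (integralClosure ℤ ℂ), 𝔪.IsMaximal ∧ ((p : ℕ) : integralClosure ℤ ℂ) ∈ 𝔪 := by
  have hmax : (Ideal.span {(p : ℤ)}).IsMaximal :=
    PrincipalIdealRing.isMaximal_of_irreducible (Nat.prime_iff_prime_int.mp hp).irreducible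
  have hker : RingHom.ker (algebraMap ℤ (integralClosure ℤ ℂ)) ≤ Ideal.span {(p : ℤ)} := by
    intro x hx
    rw [RingHom.mem_ker] at hx
    have : x = 0 := by
      have h1 := congrArg (fun y : integralClosure ℤ ℂ => (y : ℂ)) hx
      simpa using h1
    rw [this]
    exact Ideal.zero_mem _
  obtain ⟨Q, hQmax, hQP⟩ :=
    Ideal.exists_ideal_over_maximal_of_isIntegral (S := integralClosure ℤ ℂ)
      (Ideal.span {(p : ℤ)}) hker
  refine ⟨Q, hQmax, ?_⟩
  have h1 : (p : ℤ) ∈ Q.comap (algebraMap ℤ (integralClosure ℤ ℂ)) := by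
    rw [hQP]; exact Ideal.mem_span_singleton_self _
  rw [Ideal.mem_comap] at h1
  simpa using h1

/-- exact-conductor-level modularity implies modularity of the generic fibre. -/
theorem isModular_of_mlc1 {W : WeierstrassCurve ℤ}
    (h : Mlc1IsModularModelOfExactConductorLevel W) :
    (W.map (Int.castRingHom ℚ)).IsModular := by
  obtain ⟨N, hN, -, -, hmod⟩ := h
  exact ⟨W, ⟨1, one_smul _ _⟩, N, hN, hmod⟩

/-- **the mod-3 branch.** -/
theorem mlc1_of_irr3 (h59 : S59Shape) (h50 : S50Shape) (hgap : GapNine)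
    (W : WeierstrassCurve ℤ) (hΔ : W.Δ ≠ 0) (hW : W.IsSemistableModel)
    (h3 : W.ModRepIsIrreducible 3) : Mlc1IsModularModelOfExactConductorLevel W := by
  obtain ⟨M, hMpos, hres, hcube, hnine⟩ := h50 W hΔ hW h3
  by_cases h9 : 3 ^ 2 ∣ M
  · obtain ⟨M', hM'pos, hres', h9', hcube'⟩ :=
      hgap W hΔ hW h3 M hMpos hres hcube h9 (hnine h9)
    haveI : NeZero M' := ⟨hM'pos.ne'⟩
    exact h59 3 (Or.inl rfl) W hΔ hW h3 M' hres' h9' hcube'
  · haveI : NeZero M := ⟨hMpos.ne'⟩
    exact h59 3 (Or.inl rfl) W hΔ hW h3 M hres h9 hcube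

/-- a squarefree number is cube-free and not divisible by the square of a prime. -/
theorem not_pow_dvd_of_squarefree {N : ℕ} (hN : Squarefree N) {q : ℕ} (hq : q.Prime) {k : ℕ}
    (hk : 2 ≤ k) : ¬ q ^ k ∣ N := by
  intro hdvd
  have h2 : q * q ∣ N := by
    have : q ^ 2 ∣ q ^ k := pow_dvd_pow q hk
    rw [pow_two] at this
    exact this.trans hdvd
  exact hq.one_lt.ne' (Nat.isUnit_iff.mp (hN q h2))

/-- **the mod-5 branch** (3–5 switch). -/
theorem mlc1_of_irr5 (h59 : S59Shape) (h50 : S50Shape) (hgap : GapNine)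
    (W : WeierstrassCurve ℤ) (hΔ : W.Δ ≠ 0) (hW : W.IsSemistableModel)
    (h5 : W.ModRepIsIrreducible 5) : Mlc1IsModularModelOfExactConductorLevel W := by
  obtain ⟨W', hΔ', hW', h3', hcong⟩ := Fermat.Agent.S52.result W hΔ hW h5
  obtain ⟨N', hN'pos, hN'sq, hN'bad, f, hf, hfW'⟩ := mlc1_of_irr3 h59 h50 hgap W' hΔ' hW' h3'
  obtain ⟨𝔪, h𝔪max, h5𝔪⟩ := exists_maximal_over 5 (by norm_num)
  haveI : NeZero N' := ⟨hN'pos.ne'⟩
  have hres : W.IsResiduallyModularOfLevel 5 N' := by
    refine ⟨f, 𝔪, hf, h𝔪max, h5𝔪, fun ℓ hℓ hgood hℓN hℓ5 => ?_⟩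
    have hgood' : W'.IsGoodPrimeFor ℓ := fun hdvd => hℓN ((hN'bad ℓ hℓ).mpr hdvd)
    refine ⟨((W'.apOfModel ℓ : ℤ) : integralClosure ℤ ℂ), ?_, ?_⟩
    · rw [hfW' ℓ hℓ hgood' hℓN]
      simp
    · obtain ⟨c, hc⟩ := hcong ℓ hℓ hgood hgood' hℓ5
      have h1 : ((W'.apOfModel ℓ : ℤ) : integralClosure ℤ ℂ) -
          ((W.apOfModel ℓ : ℤ) : integralClosure ℤ ℂ) =
          ((5 : ℕ) : integralClosure ℤ ℂ) * ((c : ℤ) : integralClosure ℤ ℂ) := by
        rw [← Int.cast_sub, hc]
        push_cast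
        ring
      rw [h1]
      exact Ideal.mul_mem_right _ _ h5𝔪
  exact h59 5 (Or.inr rfl) W hΔ hW h5 N' hres
    (not_pow_dvd_of_squarefree hN'sq (by norm_num) le_rfl)
    (fun q hq _ => not_pow_dvd_of_squarefree hN'sq hq (by norm_num))

/-- **exact-conductor-level modularity of all semistable curves** from S59 + S50 (+ the gap). -/
theorem mlc1_of_semistable (h59 : S59Shape) (h50 : S50Shape) (hgap : GapNine)
    (W : WeierstrassCurve ℤ) (hΔ : W.Δ ≠ 0) (hW : W.IsSemistableModel) :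
    Mlc1IsModularModelOfExactConductorLevel W := by
  rcases Fermat.Agent.S51.result W hΔ hW with h3 | h5
  · exact mlc1_of_irr3 h59 h50 hgap W hΔ hW h3
  · exact mlc1_of_irr5 h59 h50 hgap W hΔ hW h5

/-- **S60 from S59 + S50** (literal S60 conclusion), modulo `GapNine`. -/
theorem s60_of_s59_s50 (h59 : S59Shape) (h50 : S50Shape) (hgap : GapNine)
    (W : WeierstrassCurve ℤ) (hΔ : W.Δ ≠ 0) (hW : W.IsSemistableModel) :
    (W.map (Int.castRingHom ℚ)).IsModular :=
  isModular_of_mlc1 (mlc1_of_semistable h59 h50 hgap W hΔ hW)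

end Fermat.Agent.Wire.Mod9
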