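/-
Programme W ("top wiring"), helper6: the MODULARITY block of the dependency DAG.

Open statements enter as hypotheses in their literal frozen shapes (`S59Shape`, `S50Shape`,
`S60Shape`); proved statements are cited (`S51.result`, `S52.result`).

Nodes:
* `ExactModularity`          : every semistable `W / ℤ` with `Δ ≠ 0` is modular of exact conductor
                               level (`Mlc1IsModularModelOfExactConductorLevel W`);
* `LevelOptimisationAtThree` : THE GAP between S50 and S59 (not a frozen statement): a level `M`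
                               with `9 ∣ M` (which S50 allows, with the side information "no
                               inertia-fixed 3-torsion") must be replaced by a level with `9 ∤ M'`
                               before S59 applies;
* `exactModularity_of_s59_s50` : S59 + S50 + (gap) + S51 + S52 ⇒ `ExactModularity` (3–5 switch);
* `s60_of_exactModularity`   : ⇒ S60;
* `s04_of_s60`               : S60 ⇒ S04 (the Frey curve has the semistable model `freyCurveInt`);
* `s06_of_exactModularity`   : ⇒ S06 (NOT from the bare S04: `IsModular` forgets the level).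
-/
import Fermat.Prelude.Def_WeierstrassCurve_Mlc1RowStatement
import Fermat.Prelude.Def_FLTPrelim_ModularRep
import Fermat.Prelude.Def_FLTPrelim_Ramification
import Fermat.Prelude.Def_FreyPackage_IsConductorLevel
import Fermat.Agent.S51
import Fermat.Agent.S52
import Fermat.Agent.Wire.FreyModel6

set_option autoImplicit false

open WeierstrassCurve WeierstrassCurve.Affine WeierstrassCurve.Affine.Point
open scoped WeierstrassCurve.Affine

namespace Fermat.Agent.Wire.ModWire6

/-! ### the open statements, as Props in their literal frozen shapes -/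

/-- the frozen statement S59 (R = T at `p ∈ {3, 5}`), literal shape. -/
def S59Shape : Prop :=
  ∀ (p : ℕ) (_hp : p = 3 ∨ p = 5)
    (W : WeierstrassCurve ℤ) (_hΔ : W.Δ ≠ 0) (_hW : W.IsSemistableModel)
    (_hirr : W.ModRepIsIrreducible p)
    (M₀ : ℕ) [NeZero M₀] (_hres₀ : W.IsResiduallyModularOfLevel p M₀)
    (_hM₀ : ¬ p ^ 2 ∣ M₀)
    (_hM₀3 : ∀ q : ℕ, q.Prime → q ≠ p → ¬ q ^ 3 ∣ M₀),
    Mlc1IsModularModelOfExactConductorLevel W

/-- "no nonzero inertia-fixed 3-torsion at 3", the side condition of S50. -/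
def NoInertiaFixedThreeTorsion (W : WeierstrassCurve ℤ) : Prop :=
  ∀ A : ValuationSubring (AlgebraicClosure ℚ), A.LiesOverPrime 3 →
    ∀ x : Submodule.torsionBy ℤ
        ((W.map (Int.castRingHom ℚ))⁄(AlgebraicClosure ℚ)).Point (3 : ℕ),
      (∀ σ ∈ A.inertiaSubgroupIn ℚ, σ • x = x) → x = 0

/-- the frozen statement S50 (Langlands–Tunnell, form (iii)), literal shape. -/
def S50Shape : Prop :=
  ∀ (W : WeierstrassCurve ℤ) (_hΔ : W.Δ ≠ 0) (_hW : W.IsSemistableModel)
    (_h3 : W.ModRepIsIrreducible 3),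
    ∃ M : ℕ, 0 < M ∧ W.IsResiduallyModularOfLevel 3 M ∧
      (∀ q : ℕ, q.Prime → q ≠ 3 → ¬ q ^ 3 ∣ M) ∧
      (3 ^ 2 ∣ M →
        ∀ A : ValuationSubring (AlgebraicClosure ℚ), A.LiesOverPrime 3 →
          ∀ x : Submodule.torsionBy ℤ
              ((W.map (Int.castRingHom ℚ))⁄(AlgebraicClosure ℚ)).Point (3 : ℕ),
            (∀ σ ∈ A.inertiaSubgroupIn ℚ, σ • x = x) → x = 0)

/-- the frozen statement S60, literal shape. -/
def S60Shape : Prop :=
  ∀ (W : WeierstrassCurve ℤ) (_hΔ : W.Δ ≠ 0) (_hW : W.IsSemistableModel),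
    (W.map (Int.castRingHom ℚ)).IsModular

/-- the frozen statement S04, literal shape. -/
def S04Shape : Prop := ∀ P : FreyPackage, P.freyCurve.IsModular

/-- the frozen statement S06, literal shape. -/
def S06Shape : Prop :=
  ∀ P : FreyPackage, ∃ N : ℕ, P.IsConductorLevel N ∧ P.ModularRepOfLevel N

/-- Modularity of semistable curves with the level: exact conductor level. -/
def ExactModularity : Prop :=
  ∀ W : WeierstrassCurve ℤ, W.Δ ≠ 0 → W.IsSemistableModel →
    Mlc1IsModularModelOfExactConductorLevel W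

/-- **The gap between S50 and S59** (level optimisation at `3`; in the literature: Serre's
refined conjecture at `p = 3`, Edixhoven / Diamond).  S50 may return a level `M` with `9 ∣ M`
(e.g. for the curve 17a1, supersingular at 3), S59 needs `9 ∤ M₀`. -/
def LevelOptimisationAtThree : Prop :=
  ∀ (W : WeierstrassCurve ℤ), W.Δ ≠ 0 → W.IsSemistableModel → W.ModRepIsIrreducible 3 →
    ∀ M : ℕ, 0 < M → W.IsResiduallyModularOfLevel 3 M →
      (∀ q : ℕ, q.Prime → q ≠ 3 → ¬ q ^ 3 ∣ M) → 3 ^ 2 ∣ M → NoInertiaFixedThreeTorsion W →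
      ∃ M' : ℕ, 0 < M' ∧ W.IsResiduallyModularOfLevel 3 M' ∧ ¬ 3 ^ 2 ∣ M' ∧
        ∀ q : ℕ, q.Prime → q ≠ 3 → ¬ q ^ 3 ∣ M'

/-! ### the 3–5 switch argument -/

/-- the `p = 3` step: S50 + (gap) + S59 ⇒ exact modularity when `E[3]` is irreducible. -/
theorem exact_of_irr_three (h59 : S59Shape) (h50 : S50Shape) (hgap : LevelOptimisationAtThree)
    (W : WeierstrassCurve ℤ) (hΔ : W.Δ ≠ 0) (hW : W.IsSemistableModel)
    (h3 : W.ModRepIsIrreducible 3) : Mlc1IsModularModelOfExactConductorLevel W := by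
  obtain ⟨M, hM, hres, hcube, hnine⟩ := h50 W hΔ hW h3
  by_cases h9 : 3 ^ 2 ∣ M
  · obtain ⟨M', hM', hres', h9', hcube'⟩ := hgap W hΔ hW h3 M hM hres hcube h9 (hnine h9)
    have : NeZero M' := ⟨hM'.ne'⟩
    exact h59 3 (Or.inl rfl) W hΔ hW h3 M' hres' h9' hcube'
  · have : NeZero M := ⟨hM.ne'⟩
    exact h59 3 (Or.inl rfl) W hΔ hW h3 M hres h9 hcube

/-- A curve congruent mod `5` to a curve which is modular of exact conductor level is residually
modular at `5` of that level. -/
theorem isResiduallyModularOfLevel_five_of_congr {W W' : WeierstrassCurve ℤ} {N : ℕ}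
    (hbad : ∀ q : ℕ, q.Prime → (q ∣ N ↔ (q : ℤ) ∣ W'.Δ))
    (hmod : W'.IsModularModelOfLevel N)
    (hcongr : ∀ ℓ : ℕ, ℓ.Prime → W.IsGoodPrimeFor ℓ → W'.IsGoodPrimeFor ℓ → ℓ ≠ 5 →
      (5 : ℤ) ∣ (W'.apOfModel ℓ - W.apOfModel ℓ)) :
    W.IsResiduallyModularOfLevel 5 N := by
  obtain ⟨f, hf, hap⟩ := hmod
  obtain ⟨𝔪, h𝔪, h5⟩ := FLTPrelim.exists_maximalIdeal_natCast_prime_mem (p := 5) (by norm_num)
  refine ⟨f, 𝔪, hf, h𝔪, h5, fun ℓ hℓ hgood hℓN hℓ5 => ?_⟩
  have hgood' : W'.IsGoodPrimeFor ℓ := fun hdvd => hℓN ((hbad ℓ hℓ).mpr hdvd)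
  refine ⟨((W'.apOfModel ℓ : ℤ) : integralClosure ℤ ℂ), ?_, ?_⟩
  · rw [hap ℓ hℓ hgood' hℓN]; push_cast; rfl
  · obtain ⟨k, hk⟩ := hcongr ℓ hℓ hgood hgood' hℓ5
    have : ((W'.apOfModel ℓ : ℤ) : integralClosure ℤ ℂ) - ((W.apOfModel ℓ : ℤ) : integralClosure ℤ ℂ)
        = ((5 : ℕ) : integralClosure ℤ ℂ) * ((k : ℤ) : integralClosure ℤ ℂ) := by
      rw [← Int.cast_sub, hk]; push_cast; ring
    rw [this]
    exact 𝔪.mul_mem_right _ h5

/-- **S59 + S50 + (level optimisation at 3) ⇒ exact modularity of all semistable curves**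
(with the proved S51, S52: the 3–5 switch). -/
theorem exactModularity_of_s59_s50 (h59 : S59Shape) (h50 : S50Shape)
    (hgap : LevelOptimisationAtThree) : ExactModularity := by
  intro W hΔ hW
  rcases Fermat.Agent.S51.result W hΔ hW with h3 | h5
  · exact exact_of_irr_three h59 h50 hgap W hΔ hW h3
  · obtain ⟨W', hΔ', hW', h3', hcongr⟩ := Fermat.Agent.S52.result W hΔ hW h5
    obtain ⟨N, hN, hsq, hbad, hmod⟩ := exact_of_irr_three h59 h50 hgap W' hΔ' hW' h3'
    have hres : W.IsResiduallyModularOfLevel 5 N :=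
      isResiduallyModularOfLevel_five_of_congr hbad hmod hcongr
    have : NeZero N := ⟨hN.ne'⟩
    refine h59 5 (Or.inr rfl) W hΔ hW h5 N hres ?_ ?_
    · intro h25
      exact Nat.squarefree_iff_prime_squarefree.mp hsq 5 (by norm_num) (by rwa [← pow_two])
    · intro q hq _ hq3
      refine Nat.squarefree_iff_prime_squarefree.mp hsq q hq ?_
      rw [← pow_two]
      exact (pow_dvd_pow q (by norm_num : 2 ≤ 3)).trans hq3

/-! ### consequences of exact modularity -/

theorem isModular_of_exact {W : WeierstrassCurve ℤ}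
    (h : Mlc1IsModularModelOfExactConductorLevel W) : (W.map (Int.castRingHom ℚ)).IsModular := by
  obtain ⟨N, hN, -, -, hmod⟩ := h
  exact ⟨W, ⟨1, by rw [one_smul]⟩, N, hN, hmod⟩

/-- exact modularity ⇒ S60. -/
theorem s60_of_exactModularity (h : ExactModularity) : S60Shape :=
  fun W hΔ hW => isModular_of_exact (h W hΔ hW)

/-- **S60 ⇒ S04**: the Frey curve is the base change of the semistable integral model
`P.freyCurveInt`. -/
theorem s04_of_s60 (h60 : S60Shape) : S04Shape := by
  intro P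
  have h := h60 P.freyCurveInt (FreyModel6.Δ_ne_zero P) (FreyModel6.isSemistableModel P)
  rwa [FreyModel6.map_freyCurveInt] at h

/-- **exact modularity ⇒ S06** (no irreducibility needed: the level is the exact conductor). -/
theorem s06_of_exactModularity (h : ExactModularity) : S06Shape := by
  intro P
  obtain ⟨N, hN, hsq, hbad, f, hf, hap⟩ :=
    h P.freyCurveInt (FreyModel6.Δ_ne_zero P) (FreyModel6.isSemistableModel P)
  refine ⟨N, ⟨hN, hsq, fun q hq hqN => ?_⟩, ?_⟩
  · exact (FreyModel6.prime_dvd_Δ_iff P hq).mp ((hbad q hq).mp hqN)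
  · obtain ⟨𝔪, h𝔪, hp⟩ := FLTPrelim.exists_maximalIdeal_natCast_prime_mem P.pp
    refine ⟨f, P.freyCurveInt, 𝔪, hf, FreyModel6.isIntegralModelOf P, h𝔪, hp,
      fun ℓ hℓ hgood hℓN _ => ?_⟩
    refine ⟨((P.freyCurveInt.apOfModel ℓ : ℤ) : integralClosure ℤ ℂ), ?_, ?_⟩
    · rw [hap ℓ hℓ hgood hℓN]; push_cast; rfl
    · rw [sub_self]; exact 𝔪.zero_mem

/-- the whole modularity block: S59 + S50 + (gap) ⇒ S60, S04, S06. -/
theorem s60_s04_s06_of_s59_s50 (h59 : S59Shape) (h50 : S50Shape)
    (hgap : LevelOptimisationAtThree) : S60Shape ∧ S04Shape ∧ S06Shape :=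
  have h := exactModularity_of_s59_s50 h59 h50 hgap
  ⟨s60_of_exactModularity h, s04_of_s60 (s60_of_exactModularity h), s06_of_exactModularity h⟩

end Fermat.Agent.Wire.ModWire6
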