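/-
Programme W ("top wiring"), chapter W-Root (helper1): **the root statement from the open leaves.**

Composition of `Wire/Top1` (helper1) and `Wire/Lower8` (helper8).  Each theorem takes the OPEN
statements as hypotheses in the literal shape of the frozen statements (binder lists copied from
`Fermat/Statements/SNN.lean`; no reserved name is mentioned); everything else is proved.

* `s03_of_s04_s06_s12_s43_s44` : S03 (there is no Frey package) from
  S04 (the Frey curve is modular), S06 (the Frey representation is modular of some conductor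
  level), S12 (no Galois-stable line for `p ≥ 17`), S43 (strip an odd prime `q ≠ p` from the
  level) and S44 (strip `p` from the level);
* `s01_of_s04_s06_s12_s43_s44` : S01 (Fermat's Last Theorem) from the same five open statements.

Proved statements used on the way (through `Top1` / `Lower8`): S02, S05, S07, S08, S10, S11, S13.
The dependency picture is

    S01 ⇐ S03 (+ S02, Mathlib FLT3/FLT4)
    S03 ⇐ S04 + S09 + S45 (+ S07)
    S09 ⇐ S12 (+ S10, S11, S13)
    S45 ⇐ S06 + S43 + S44 (+ S05, S08)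
-/
import Mathlib
import Fermat.Agent.Wire.Top1
import Fermat.Agent.Wire.Lower8

set_option autoImplicit false

open WeierstrassCurve WeierstrassCurve.Affine WeierstrassCurve.Affine.Point
open CuspForm ModularFormClass UpperHalfPlane

namespace Fermat.Agent.Wire.Root1

/-- **S03 from S04, S06, S12, S43, S44.** -/
theorem s03_of_s04_s06_s12_s43_s44
    (h04 : ∀ P : FreyPackage, P.freyCurve.IsModular)
    (h06 : ∀ P : FreyPackage, ∃ N : ℕ, P.IsConductorLevel N ∧ P.ModularRepOfLevel N)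
    (h12 : ∀ (P : FreyPackage) (_hp : 17 ≤ P.p),
      ¬ HasGaloisStableCofixedLine (K := AlgebraicClosure ℚ) ℚ P.freyCurve P.p)
    (h43 : ∀ (P : FreyPackage) {N q : ℕ} (_hcond : P.IsConductorLevel N) (_hq : q.Prime)
      (_hq2 : q ≠ 2) (_hqp : q ≠ P.p) (_hqN : q ∣ N)
      (_hirr : GaloisRepIsIrreducible (K := AlgebraicClosure ℚ) ℚ P.freyCurve P.p)
      (_hmod : P.ModularRepOfLevel N) (_hunr : P.GaloisRepUnramifiedAt q),
      ∃ M : ℕ, M ∣ N ∧ ¬ q ∣ M ∧ P.ModularRepOfLevel M)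
    (h44 : ∀ (P : FreyPackage) {N : ℕ} (_hcond : P.IsConductorLevel N) (_hpN : P.p ∣ N)
      (_hirr : GaloisRepIsIrreducible (K := AlgebraicClosure ℚ) ℚ P.freyCurve P.p)
      (_hmod : P.ModularRepOfLevel N),
      ∃ M : ℕ, M ∣ N ∧ ¬ P.p ∣ M ∧ P.ModularRepOfLevel M) :
    ∀ _P : FreyPackage, False :=
  Fermat.Agent.Wire.Top1.s03_of_s04_s09_s45 h04 (Fermat.Agent.Wire.Top1.s09_of_s12 h12)
    (Fermat.Agent.Wire.Lower8.s45_of_s06_s43_s44 h06 h43 h44)

/-- **S01 (Fermat's Last Theorem) from S04, S06, S12, S43, S44.** -/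
theorem s01_of_s04_s06_s12_s43_s44
    (h04 : ∀ P : FreyPackage, P.freyCurve.IsModular)
    (h06 : ∀ P : FreyPackage, ∃ N : ℕ, P.IsConductorLevel N ∧ P.ModularRepOfLevel N)
    (h12 : ∀ (P : FreyPackage) (_hp : 17 ≤ P.p),
      ¬ HasGaloisStableCofixedLine (K := AlgebraicClosure ℚ) ℚ P.freyCurve P.p)
    (h43 : ∀ (P : FreyPackage) {N q : ℕ} (_hcond : P.IsConductorLevel N) (_hq : q.Prime)
      (_hq2 : q ≠ 2) (_hqp : q ≠ P.p) (_hqN : q ∣ N)
      (_hirr : GaloisRepIsIrreducible (K := AlgebraicClosure ℚ) ℚ P.freyCurve P.p)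
      (_hmod : P.ModularRepOfLevel N) (_hunr : P.GaloisRepUnramifiedAt q),
      ∃ M : ℕ, M ∣ N ∧ ¬ q ∣ M ∧ P.ModularRepOfLevel M)
    (h44 : ∀ (P : FreyPackage) {N : ℕ} (_hcond : P.IsConductorLevel N) (_hpN : P.p ∣ N)
      (_hirr : GaloisRepIsIrreducible (K := AlgebraicClosure ℚ) ℚ P.freyCurve P.p)
      (_hmod : P.ModularRepOfLevel N),
      ∃ M : ℕ, M ∣ N ∧ ¬ P.p ∣ M ∧ P.ModularRepOfLevel M)
    (n : ℕ) (hn : 3 ≤ n) (a b c : ℕ) (ha : 0 < a) (hb : 0 < b) (hc : 0 < c) :
    a ^ n + b ^ n ≠ c ^ n :=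
  Fermat.Agent.Wire.Top1.s01_of_s03
    (s03_of_s04_s06_s12_s43_s44 h04 h06 h12 h43 h44) n hn a b c ha hb hc

end Fermat.Agent.Wire.Root1
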