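/-
Programme W ("top wiring"), chapter W-Root, part 2 (helper1): **the root statement from the open
leaves S12, S43, S44, S50, S59 (and the explicit gap `GapNine`).**

Composition of `Wire/Root1` (helper1: S01 ⇐ S04 + S06 + S12 + S43 + S44), `Wire/Mod9` (helper9:
exact-conductor-level modularity of all semistable curves from S59 + S50 + `GapNine`, with the
proved S51, S52) and `Wire/FreyModel9` (helper9: the integral Frey model `P.freyCurveInt` is a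
semistable integral model of `P.freyCurve`, hence S04 and S06 follow from exact-conductor-level
modularity).  Each theorem takes the OPEN statements as hypotheses in the literal shape of the
frozen statements (binder lists copied from `Fermat/Statements/SNN.lean`; no reserved name is
mentioned); everything else is proved.

* `s04_of_s59_s50`, `s06_of_s59_s50` : S04 and S06 from S59 + S50 + `GapNine`;
* `s03_of_s12_s43_s44_s50_s59`, `s01_of_s12_s43_s44_s50_s59` : S03 and S01 (Fermat's Last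
  Theorem) from S12, S43, S44, S50, S59 and `Fermat.Agent.Wire.Mod9.GapNine`.

`GapNine` (defined in `Wire/Mod9`) is NOT one of the 60 statements: it is the level optimisation at
`3` when `9` divides the level produced by S50 (S59 demands `¬ 9 ∣ M₀`); see the header of
`Wire/Mod9`.  The dependency picture is

    S01 ⇐ S03 (+ S02, Mathlib FLT3/FLT4)
    S03 ⇐ S04 + S09 + S45 (+ S07)
    S09 ⇐ S12 (+ S10, S11, S13)
    S45 ⇐ S06 + S43 + S44 (+ S05, S08)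
    S04, S06 ⇐ S59 + S50 + GapNine (+ S51, S52, the integral Frey model)
-/
import Mathlib
import Fermat.Agent.Wire.Root1
import Fermat.Agent.Wire.Mod9
import Fermat.Agent.Wire.FreyModel9

set_option autoImplicit false

open WeierstrassCurve WeierstrassCurve.Affine WeierstrassCurve.Affine.Point
open CuspForm ModularFormClass UpperHalfPlane
open scoped WeierstrassCurve.Affine

namespace Fermat.Agent.Wire.Root1B

/-- **S04 from S59 + S50** (literal shapes), modulo `GapNine`. -/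
theorem s04_of_s59_s50
    (h59 : ∀ (p : ℕ) (_hp : p = 3 ∨ p = 5)
      (W : WeierstrassCurve ℤ) (_hΔ : W.Δ ≠ 0) (_hW : W.IsSemistableModel)
      (_hirr : W.ModRepIsIrreducible p)
      (M₀ : ℕ) [NeZero M₀] (_hres₀ : W.IsResiduallyModularOfLevel p M₀)
      (_hM₀ : ¬ p ^ 2 ∣ M₀)
      (_hM₀3 : ∀ q : ℕ, q.Prime → q ≠ p → ¬ q ^ 3 ∣ M₀),
      Mlc1IsModularModelOfExactConductorLevel W)
    (h50 : ∀ (W : WeierstrassCurve ℤ) (_hΔ : W.Δ ≠ 0) (_hW : W.IsSemistableModel)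
      (_h3 : W.ModRepIsIrreducible 3),
      ∃ M : ℕ, 0 < M ∧ W.IsResiduallyModularOfLevel 3 M ∧
        (∀ q : ℕ, q.Prime → q ≠ 3 → ¬ q ^ 3 ∣ M) ∧
        (3 ^ 2 ∣ M →
          ∀ A : ValuationSubring (AlgebraicClosure ℚ), A.LiesOverPrime 3 →
            ∀ x : Submodule.torsionBy ℤ
                ((W.map (Int.castRingHom ℚ))⁄(AlgebraicClosure ℚ)).Point (3 : ℕ),
              (∀ σ ∈ A.inertiaSubgroupIn ℚ, σ • x = x) → x = 0))
    (hgap : Fermat.Agent.Wire.Mod9.GapNine) :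
    ∀ P : FreyPackage, P.freyCurve.IsModular :=
  Fermat.Agent.Wire.FreyModel9.s04_of_mlc1
    (Fermat.Agent.Wire.Mod9.mlc1_of_semistable h59 h50 hgap)

/-- **S06 from S59 + S50** (literal shapes), modulo `GapNine`. -/
theorem s06_of_s59_s50
    (h59 : ∀ (p : ℕ) (_hp : p = 3 ∨ p = 5)
      (W : WeierstrassCurve ℤ) (_hΔ : W.Δ ≠ 0) (_hW : W.IsSemistableModel)
      (_hirr : W.ModRepIsIrreducible p)
      (M₀ : ℕ) [NeZero M₀] (_hres₀ : W.IsResiduallyModularOfLevel p M₀)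
      (_hM₀ : ¬ p ^ 2 ∣ M₀)
      (_hM₀3 : ∀ q : ℕ, q.Prime → q ≠ p → ¬ q ^ 3 ∣ M₀),
      Mlc1IsModularModelOfExactConductorLevel W)
    (h50 : ∀ (W : WeierstrassCurve ℤ) (_hΔ : W.Δ ≠ 0) (_hW : W.IsSemistableModel)
      (_h3 : W.ModRepIsIrreducible 3),
      ∃ M : ℕ, 0 < M ∧ W.IsResiduallyModularOfLevel 3 M ∧
        (∀ q : ℕ, q.Prime → q ≠ 3 → ¬ q ^ 3 ∣ M) ∧
        (3 ^ 2 ∣ M →
          ∀ A : ValuationSubring (AlgebraicClosure ℚ), A.LiesOverPrime 3 →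
            ∀ x : Submodule.torsionBy ℤ
                ((W.map (Int.castRingHom ℚ))⁄(AlgebraicClosure ℚ)).Point (3 : ℕ),
              (∀ σ ∈ A.inertiaSubgroupIn ℚ, σ • x = x) → x = 0))
    (hgap : Fermat.Agent.Wire.Mod9.GapNine) :
    ∀ P : FreyPackage, ∃ N : ℕ, P.IsConductorLevel N ∧ P.ModularRepOfLevel N :=
  Fermat.Agent.Wire.FreyModel9.s06_of_mlc1
    (Fermat.Agent.Wire.Mod9.mlc1_of_semistable h59 h50 hgap)

/-- **S03 from S12, S43, S44, S50, S59**, modulo `GapNine`. -/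
theorem s03_of_s12_s43_s44_s50_s59
    (h12 : ∀ (P : FreyPackage) (_hp : 17 ≤ P.p),
      ¬ HasGaloisStableCofixedLine (K := AlgebraicClosure ℚ) ℚ P.freyCurve P.p)
    (h43 : ∀ (P : FreyPackage) {N q : ℕ} (_hcond : P.IsConductorLevel N) (_hq : q.Prime)
      (_hq2 : q ≠ 2) (_hqp : q ≠ P.p) (_hqN : q ∣ N)
      (_hirr : GaloisRepIsIrreducible (K := AlgebraicClosure ℚ) ℚ P.freyCurve P.p)
      (_hmod : P.ModularRepOfLevel N) (_hunr : P.GaloisRepUnramifiedAt q),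
      ∃ M : ℕ, M ∣ N ∧ ¬ q ∣ M ∧ P.ModularRepOfLevel M)
    (h44 : ∀ (P : FreyPackage) {N : ℕ} (_hcond : P.IsConductorLevel N) (_hpN : P.p ∣ N)
      (_hirr : GaloisRepIsIrreducible (K := AlgebraicClosure ℚ) ℚ P.freyCurve P.p)
      (_hmod : P.ModularRepOfLevel N),
      ∃ M : ℕ, M ∣ N ∧ ¬ P.p ∣ M ∧ P.ModularRepOfLevel M)
    (h50 : ∀ (W : WeierstrassCurve ℤ) (_hΔ : W.Δ ≠ 0) (_hW : W.IsSemistableModel)
      (_h3 : W.ModRepIsIrreducible 3),
      ∃ M : ℕ, 0 < M ∧ W.IsResiduallyModularOfLevel 3 M ∧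
        (∀ q : ℕ, q.Prime → q ≠ 3 → ¬ q ^ 3 ∣ M) ∧
        (3 ^ 2 ∣ M →
          ∀ A : ValuationSubring (AlgebraicClosure ℚ), A.LiesOverPrime 3 →
            ∀ x : Submodule.torsionBy ℤ
                ((W.map (Int.castRingHom ℚ))⁄(AlgebraicClosure ℚ)).Point (3 : ℕ),
              (∀ σ ∈ A.inertiaSubgroupIn ℚ, σ • x = x) → x = 0))
    (h59 : ∀ (p : ℕ) (_hp : p = 3 ∨ p = 5)
      (W : WeierstrassCurve ℤ) (_hΔ : W.Δ ≠ 0) (_hW : W.IsSemistableModel)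
      (_hirr : W.ModRepIsIrreducible p)
      (M₀ : ℕ) [NeZero M₀] (_hres₀ : W.IsResiduallyModularOfLevel p M₀)
      (_hM₀ : ¬ p ^ 2 ∣ M₀)
      (_hM₀3 : ∀ q : ℕ, q.Prime → q ≠ p → ¬ q ^ 3 ∣ M₀),
      Mlc1IsModularModelOfExactConductorLevel W)
    (hgap : Fermat.Agent.Wire.Mod9.GapNine) :
    ∀ _P : FreyPackage, False :=
  Fermat.Agent.Wire.Root1.s03_of_s04_s06_s12_s43_s44
    (s04_of_s59_s50 h59 h50 hgap) (s06_of_s59_s50 h59 h50 hgap) h12 h43 h44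

/-- **S01 (Fermat's Last Theorem) from S12, S43, S44, S50, S59**, modulo `GapNine`. -/
theorem s01_of_s12_s43_s44_s50_s59
    (h12 : ∀ (P : FreyPackage) (_hp : 17 ≤ P.p),
      ¬ HasGaloisStableCofixedLine (K := AlgebraicClosure ℚ) ℚ P.freyCurve P.p)
    (h43 : ∀ (P : FreyPackage) {N q : ℕ} (_hcond : P.IsConductorLevel N) (_hq : q.Prime)
      (_hq2 : q ≠ 2) (_hqp : q ≠ P.p) (_hqN : q ∣ N)
      (_hirr : GaloisRepIsIrreducible (K := AlgebraicClosure ℚ) ℚ P.freyCurve P.p)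
      (_hmod : P.ModularRepOfLevel N) (_hunr : P.GaloisRepUnramifiedAt q),
      ∃ M : ℕ, M ∣ N ∧ ¬ q ∣ M ∧ P.ModularRepOfLevel M)
    (h44 : ∀ (P : FreyPackage) {N : ℕ} (_hcond : P.IsConductorLevel N) (_hpN : P.p ∣ N)
      (_hirr : GaloisRepIsIrreducible (K := AlgebraicClosure ℚ) ℚ P.freyCurve P.p)
      (_hmod : P.ModularRepOfLevel N),
      ∃ M : ℕ, M ∣ N ∧ ¬ P.p ∣ M ∧ P.ModularRepOfLevel M)
    (h50 : ∀ (W : WeierstrassCurve ℤ) (_hΔ : W.Δ ≠ 0) (_hW : W.IsSemistableModel)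
      (_h3 : W.ModRepIsIrreducible 3),
      ∃ M : ℕ, 0 < M ∧ W.IsResiduallyModularOfLevel 3 M ∧
        (∀ q : ℕ, q.Prime → q ≠ 3 → ¬ q ^ 3 ∣ M) ∧
        (3 ^ 2 ∣ M →
          ∀ A : ValuationSubring (AlgebraicClosure ℚ), A.LiesOverPrime 3 →
            ∀ x : Submodule.torsionBy ℤ
                ((W.map (Int.castRingHom ℚ))⁄(AlgebraicClosure ℚ)).Point (3 : ℕ),
              (∀ σ ∈ A.inertiaSubgroupIn ℚ, σ • x = x) → x = 0))
    (h59 : ∀ (p : ℕ) (_hp : p = 3 ∨ p = 5)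
      (W : WeierstrassCurve ℤ) (_hΔ : W.Δ ≠ 0) (_hW : W.IsSemistableModel)
      (_hirr : W.ModRepIsIrreducible p)
      (M₀ : ℕ) [NeZero M₀] (_hres₀ : W.IsResiduallyModularOfLevel p M₀)
      (_hM₀ : ¬ p ^ 2 ∣ M₀)
      (_hM₀3 : ∀ q : ℕ, q.Prime → q ≠ p → ¬ q ^ 3 ∣ M₀),
      Mlc1IsModularModelOfExactConductorLevel W)
    (hgap : Fermat.Agent.Wire.Mod9.GapNine)
    (n : ℕ) (hn : 3 ≤ n) (a b c : ℕ) (ha : 0 < a) (hb : 0 < b) (hc : 0 < c) :
    a ^ n + b ^ n ≠ c ^ n :=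
  Fermat.Agent.Wire.Top1.s01_of_s03
    (s03_of_s12_s43_s44_s50_s59 h12 h43 h44 h50 h59 hgap) n hn a b c ha hb hc

end Fermat.Agent.Wire.Root1B
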